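import Mathlib
import Fermat.Prelude.Def_FLTPrelim_Ramification

set_option autoImplicit false

namespace Fermat.Agent.S05

open ValuationSubring

variable {K L : Type*} [Field K] [Field L] [Algebra K L]

/-- Elements of the inertia group stabilise `A` and act trivially modulo the maximal ideal. -/
theorem inertia_spec (A : ValuationSubring L) (σ : L ≃ₐ[K] L)
    (hσ : σ ∈ A.inertiaSubgroupIn K) :
    (∀ a : L, a ∈ A → σ a ∈ A) ∧ (∀ a : L, a ∈ A → σ a - a ∈ A.nonunits) := by
  obtain ⟨τ, hτ, rfl⟩ := hσ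
  have hmem : ∀ a : L, a ∈ A → (τ : L ≃ₐ[K] L) a ∈ A := by
    intro a ha
    exact ((A.subMulAction K).smul_mem τ ha)
  refine ⟨hmem, ?_⟩
  intro a ha
  have h1 : MulSemiringAction.toRingAut (A.decompositionSubgroup K)
      (IsLocalRing.ResidueField A) τ = 1 := hτ
  have h2 := congrArg (fun f => f (IsLocalRing.residue A ⟨a, ha⟩)) h1
  simp only [RingAut.one_apply] at h2
  have h3 : IsLocalRing.residue A (τ • (⟨a, ha⟩ : A)) = IsLocalRing.residue A ⟨a, ha⟩ := h2
  rw [← sub_eq_zero, ← map_sub, IsLocalRing.residue_eq_zero_iff] at h3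
  exact coe_mem_nonunits_iff.mpr h3

end Fermat.Agent.S05
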