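import Mathlib

/-!
# S05: basic definitions

`Tri` : the collinear-triple relation on the curve `Y² = X³ + a₂X² + a₄X + a₆`.
`Model` : an abelian group with coordinate functions such that three nonzero elements of sum zero
are collinear.  All valuation-theoretic arguments of S05 are made for a `Model`.
-/

set_option autoImplicit false

namespace Fermat.Agent.S05

variable {K : Type*} [Field K] {Γ₀ : Type*} [LinearOrderedCommGroupWithZero Γ₀]

/-- Collinear-triple relation for the curve `Y² = X³ + a₂X² + a₄X + a₆`. -/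
def Tri (a₂ a₄ a₆ x₁ y₁ x₂ y₂ x₃ y₃ : K) : Prop :=
  ∃ l k : K, y₁ = l * x₁ + k ∧ y₂ = l * x₂ + k ∧ y₃ = l * x₃ + k ∧
    x₁ + x₂ + x₃ = l ^ 2 - a₂ ∧ x₁ * x₂ + x₁ * x₃ + x₂ * x₃ = a₄ - 2 * l * k ∧
    x₁ * x₂ * x₃ = k ^ 2 - a₆

/-- An abelian group with coordinates on the curve `Y² = X³ + a₂X² + a₄X + a₆`
(the values of `X`, `Y` at `0` are junk). -/
structure Model (G : Type*) [AddCommGroup G] (a₂ a₄ a₆ : K) where
  X : G → K
  Y : G → K
  eqn : ∀ P, P ≠ 0 → Y P ^ 2 = X P ^ 3 + a₂ * X P ^ 2 + a₄ * X P + a₆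
  X_neg : ∀ P, X (-P) = X P
  Y_neg : ∀ P, Y (-P) = -Y P
  tri : ∀ P Q R, P ≠ 0 → Q ≠ 0 → R ≠ 0 → P + Q + R = 0 →
    Tri a₂ a₄ a₆ (X P) (Y P) (X Q) (Y Q) (X R) (Y R)

section tri
variable {a₂ a₄ a₆ x₁ y₁ x₂ y₂ x₃ y₃ : K}

theorem Tri.swap12 (T : Tri a₂ a₄ a₆ x₁ y₁ x₂ y₂ x₃ y₃) : Tri a₂ a₄ a₆ x₂ y₂ x₁ y₁ x₃ y₃ := by
  obtain ⟨l, k, h1, h2, h3, e1, e2, e3⟩ := T
  exact ⟨l, k, h2, h1, h3, by linear_combination e1, by linear_combination e2,
    by linear_combination e3⟩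

theorem Tri.rot (T : Tri a₂ a₄ a₆ x₁ y₁ x₂ y₂ x₃ y₃) : Tri a₂ a₄ a₆ x₂ y₂ x₃ y₃ x₁ y₁ := by
  obtain ⟨l, k, h1, h2, h3, e1, e2, e3⟩ := T
  exact ⟨l, k, h2, h3, h1, by linear_combination e1, by linear_combination e2,
    by linear_combination e3⟩

theorem Tri.shift (r : K) (T : Tri a₂ a₄ a₆ x₁ y₁ x₂ y₂ x₃ y₃) :
    Tri (a₂ + 3 * r) (a₄ + 2 * a₂ * r + 3 * r ^ 2) (a₆ + a₄ * r + a₂ * r ^ 2 + r ^ 3)
      (x₁ - r) y₁ (x₂ - r) y₂ (x₃ - r) y₃ := by
  obtain ⟨l, k, h1, h2, h3, e1, e2, e3⟩ := T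
  refine ⟨l, k + l * r, by linear_combination h1, by linear_combination h2,
    by linear_combination h3, by linear_combination e1, ?_, ?_⟩
  · linear_combination e2 - 2 * r * e1
  · linear_combination e3 - r * e2 + r ^ 2 * e1

/-- The third point of a triple lies on the curve. -/
theorem Tri.eqn₃ (T : Tri a₂ a₄ a₆ x₁ y₁ x₂ y₂ x₃ y₃) :
    y₃ ^ 2 = x₃ ^ 3 + a₂ * x₃ ^ 2 + a₄ * x₃ + a₆ := by
  obtain ⟨l, k, h1, h2, h3, e1, e2, e3⟩ := T
  rw [h3]
  linear_combination (-x₃ ^ 2) * e1 + x₃ * e2 - e3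

/-- Relations "centred at the third point". -/
theorem Tri.centre₃ (T : Tri a₂ a₄ a₆ x₁ y₁ x₂ y₂ x₃ y₃) :
    ∃ l : K, (x₁ - x₃) * (x₂ - x₃) = (3 * x₃ ^ 2 + 2 * a₂ * x₃ + a₄) - 2 * l * y₃ ∧
      (x₁ - x₃) + (x₂ - x₃) = l ^ 2 - (a₂ + 3 * x₃) ∧ y₁ - y₂ = l * (x₁ - x₂) ∧
      x₁ + x₂ + x₃ = l ^ 2 - a₂ := by
  obtain ⟨l, k, h1, h2, h3, e1, e2, e3⟩ := T
  refine ⟨l, ?_, by linear_combination e1, by rw [h1, h2]; ring, e1⟩
  rw [h3]
  linear_combination e2 - 2 * x₃ * e1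

end tri

theorem v_two_le (v : Valuation K Γ₀) : v (2 : K) ≤ 1 := by
  have : (2 : K) = 1 + 1 := by norm_num
  rw [this]
  exact v.map_add_le (by simp) (by simp)

theorem v_three_le (v : Valuation K Γ₀) : v (3 : K) ≤ 1 := by
  have : (3 : K) = 2 + 1 := by norm_num
  rw [this]
  exact v.map_add_le (v_two_le v) (by simp)

theorem lt_sq_of_one_lt {g : Γ₀} (h : 1 < g) : g < g ^ 2 := by
  have h0 : 0 < g := lt_trans zero_lt_one h
  calc g = g * 1 := (mul_one g).symm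
    _ < g * g := by exact (mul_lt_mul_iff_right₀ h0).mpr h
    _ = g ^ 2 := (sq g).symm

/-- Key inequality, integral version. -/
theorem keyU₁ (v : Valuation K Γ₀) {l a b c u₁ u₂ : K} (hm : u₁ * u₂ = a - 2 * l * b)
    (hs : u₁ + u₂ = l ^ 2 - c) (hc : v c ≤ 1) (ha : v a ≤ 1) (hb : v b ≤ 1)
    (h1 : 1 < v u₁) (h2 : 1 < v u₂) : False := by
  have h01 : 0 < v u₁ := lt_trans zero_lt_one h1
  have h02 : 0 < v u₂ := lt_trans zero_lt_one h2
  have hlt : v (u₁ + u₂) < v (u₁ * u₂) := by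
    rw [v.map_mul]
    refine lt_of_le_of_lt (v.map_add u₁ u₂) (max_lt ?_ ?_)
    · exact lt_mul_of_one_lt_right h01 h2
    · exact lt_mul_of_one_lt_left h02 h1
  have hbig : 1 < v (u₁ * u₂) := by
    rw [v.map_mul]; exact one_lt_mul'' h1 h2
  by_cases hl : v l ≤ 1
  · have : v (a - 2 * l * b) ≤ 1 := by
      refine v.map_sub_le ha ?_
      rw [v.map_mul, v.map_mul]
      exact mul_le_one' (mul_le_one' (v_two_le v) hl) hb
    rw [hm] at hbig
    exact absurd hbig (not_lt.mpr this)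
  · rw [not_le] at hl
    have hl2 : v l < v l ^ 2 := lt_sq_of_one_lt hl
    have e1 : v (l ^ 2 - c) = v l ^ 2 := by
      rw [← v.map_pow]
      apply v.map_sub_eq_of_lt_left
      rw [v.map_pow]
      exact lt_of_le_of_lt hc (lt_trans hl hl2)
    have e2 : v (a - 2 * l * b) ≤ v l := by
      refine v.map_sub_le (le_trans ha hl.le) ?_
      rw [v.map_mul, v.map_mul]
      calc v 2 * v l * v b ≤ 1 * v l * 1 := by gcongr; exact v_two_le v
        _ = v l := by simp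
    rw [hs, hm, e1] at hlt
    exact absurd (lt_of_lt_of_le hlt e2) (not_lt.mpr hl2.le)

/-- Key inequality, maximal-ideal version. -/
theorem keyU₂ (v : Valuation K Γ₀) {l a b c u₁ u₂ : K} (hm : u₁ * u₂ = a - 2 * l * b)
    (hs : u₁ + u₂ = l ^ 2 - c) (hc : v c ≤ 1) (ha : v a < 1) (hb : v b < 1)
    (h1 : 1 ≤ v u₁) (h2 : 1 ≤ v u₂) : False := by
  have hle : v (u₁ + u₂) ≤ v (u₁ * u₂) := by
    rw [v.map_mul]
    refine le_trans (v.map_add u₁ u₂) (max_le ?_ ?_)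
    · exact le_mul_of_one_le_right' h2
    · exact le_mul_of_one_le_left' h1
  have hbig : 1 ≤ v (u₁ * u₂) := by
    rw [v.map_mul]; exact one_le_mul h1 h2
  by_cases hl : v l ≤ 1
  · have : v (a - 2 * l * b) < 1 := by
      refine v.map_sub_lt ha ?_
      rw [v.map_mul, v.map_mul]
      exact lt_of_le_of_lt (mul_le_of_le_one_left' (mul_le_one' (v_two_le v) hl)) hb
    rw [hm] at hbig
    exact absurd hbig (not_le.mpr this)
  · rw [not_le] at hl
    have hl0 : 0 < v l := lt_trans zero_lt_one hl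
    have hl2 : v l < v l ^ 2 := lt_sq_of_one_lt hl
    have e1 : v (l ^ 2 - c) = v l ^ 2 := by
      rw [← v.map_pow]
      apply v.map_sub_eq_of_lt_left
      rw [v.map_pow]
      exact lt_of_le_of_lt hc (lt_trans hl hl2)
    have e2 : v (a - 2 * l * b) < v l := by
      refine v.map_sub_lt (lt_trans ha hl) ?_
      rw [v.map_mul, v.map_mul]
      calc v 2 * v l * v b ≤ 1 * v l * v b := by gcongr; exact v_two_le v
        _ = v l * v b := by simp
        _ < v l * 1 := (mul_lt_mul_iff_right₀ hl0).mpr hb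
        _ = v l := by simp
    rw [hs, hm, e1] at hle
    exact absurd (lt_of_le_of_lt hle e2) (not_lt.mpr hl2.le)

end Fermat.Agent.S05
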