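import Mathlib
import Fermat.Agent.S05.Defs

/-! # S05, task 1: the kernel of reduction `E₁ = {0} ∪ {1 < v X}` has no `n`-torsion, `v n = 1` -/

set_option autoImplicit false

namespace Fermat.Agent.S05

variable {K : Type*} [Field K] {Γ₀ : Type*} [LinearOrderedCommGroupWithZero Γ₀]

section tri
variable {a₂ a₄ a₆ x₁ y₁ x₂ y₂ x₃ y₃ : K}

theorem v_le_one_of_sq_le_one (v : Valuation K Γ₀) {y : K} (h : v (y ^ 2) ≤ 1) : v y ≤ 1 := by
  by_contra hy
  rw [not_le] at hy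
  rw [v.map_pow] at h
  exact absurd (lt_trans hy (lt_sq_of_one_lt hy)) (not_lt.mpr h)

theorem tri_E1_closed (v : Valuation K Γ₀) (h₂ : v a₂ ≤ 1) (h₄ : v a₄ ≤ 1) (h₆ : v a₆ ≤ 1)
    (T : Tri a₂ a₄ a₆ x₁ y₁ x₂ y₂ x₃ y₃) (h1 : 1 < v x₁) (h2 : 1 < v x₂) : 1 < v x₃ := by
  by_contra h3
  rw [not_lt] at h3
  obtain ⟨l, hm, hs, -, -⟩ := T.centre₃
  have hy : v y₃ ≤ 1 := by
    apply v_le_one_of_sq_le_one
    rw [T.eqn₃]
    refine v.map_add_le (v.map_add_le (v.map_add_le ?_ ?_) ?_) h₆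
    · rw [v.map_pow]; exact pow_le_one' h3 3
    · rw [v.map_mul, v.map_pow]; exact mul_le_one' h₂ (pow_le_one' h3 2)
    · rw [v.map_mul]; exact mul_le_one' h₄ h3
  have hu1 : 1 < v (x₁ - x₃) := by
    rw [v.map_sub_eq_of_lt_left (lt_of_le_of_lt h3 h1)]; exact h1
  have hu2 : 1 < v (x₂ - x₃) := by
    rw [v.map_sub_eq_of_lt_left (lt_of_le_of_lt h3 h2)]; exact h2
  refine keyU₁ v hm hs ?_ ?_ hy hu1 hu2
  · refine v.map_add_le h₂ ?_
    rw [v.map_mul]; exact mul_le_one' (v_three_le v) h3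
  · refine v.map_add_le (v.map_add_le ?_ ?_) h₄
    · rw [v.map_mul, v.map_pow]; exact mul_le_one' (v_three_le v) (pow_le_one' h3 2)
    · rw [v.map_mul, v.map_mul]; exact mul_le_one' (mul_le_one' (v_two_le v) h₂) h3

theorem tri_z_add (v : Valuation K Γ₀) (h₂ : v a₂ ≤ 1) (h₄ : v a₄ ≤ 1) (h₆ : v a₆ ≤ 1)
    (T : Tri a₂ a₄ a₆ x₁ y₁ x₂ y₂ x₃ y₃) (h1 : 1 < v x₁) (h2 : 1 < v x₂) (h3 : 1 < v x₃) :
    v (x₁ / y₁ + x₂ / y₂ + x₃ / y₃) ≤ v (x₁ / y₁) * v (x₂ / y₂) * v (x₃ / y₃) := by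
  obtain ⟨l, k, hy1, hy2, hy3, e1, e2, e3⟩ := T
  have p1 : 0 < v x₁ := lt_trans zero_lt_one h1
  have p2 : 0 < v x₂ := lt_trans zero_lt_one h2
  have p3 : 0 < v x₃ := lt_trans zero_lt_one h3
  -- v (x₁ x₂ x₃) is big
  have hprod : v (x₁ * x₂ * x₃) = v x₁ * v x₂ * v x₃ := by rw [v.map_mul, v.map_mul]
  have hbig : 1 < v (x₁ * x₂ * x₃) := by
    rw [hprod]; exact one_lt_mul'' (one_lt_mul'' h1 h2) h3
  -- v k ^ 2 = v (x₁ x₂ x₃)
  have hk2 : v k ^ 2 = v (x₁ * x₂ * x₃) := by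
    have : k ^ 2 = x₁ * x₂ * x₃ + a₆ := by linear_combination -e3
    rw [← v.map_pow, this]
    exact v.map_add_eq_of_lt_left (lt_of_le_of_lt h₆ hbig)
  have hk1 : 1 < v k := by
    by_contra h
    rw [not_lt] at h
    have : v k ^ 2 ≤ 1 := pow_le_one' h 2
    rw [hk2] at this
    exact absurd hbig (not_lt.mpr this)
  have hk0 : 0 < v k := lt_trans zero_lt_one hk1
  -- each v xᵢ < v (x₁ x₂ x₃)
  have q1 : v x₁ < v (x₁ * x₂ * x₃) := by
    rw [hprod, mul_assoc]; exact lt_mul_of_one_lt_right p1 (one_lt_mul'' h2 h3)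
  have q2 : v x₂ < v (x₁ * x₂ * x₃) := by
    rw [hprod, mul_comm (v x₁), mul_assoc]; exact lt_mul_of_one_lt_right p2 (one_lt_mul'' h1 h3)
  have q3 : v x₃ < v (x₁ * x₂ * x₃) := by
    rw [hprod]; exact lt_mul_of_one_lt_left p3 (one_lt_mul'' h1 h2)
  have hl2 : v l ^ 2 < v k ^ 2 := by
    have : l ^ 2 = x₁ + x₂ + x₃ + a₂ := by linear_combination -e1
    rw [← v.map_pow, this, hk2]
    exact v.map_add_lt (v.map_add_lt (v.map_add_lt q1 q2) q3) (lt_of_le_of_lt h₂ hbig)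
  have hl : v l < v k := lt_of_pow_lt_pow_left₀ 2 (le_of_lt hk0) hl2
  have hk20 : 0 < v k ^ 2 := pow_pos hk0 2
  -- numerator and denominator
  have hDn : y₁ * y₂ * y₃ = k ^ 3 + (- a₂ * l * k ^ 2 + a₄ * l ^ 2 * k - a₆ * l ^ 3) := by
    rw [hy1, hy2, hy3]
    linear_combination l ^ 3 * e3 + l ^ 2 * k * e2 + l * k ^ 2 * e1
  have hNm : x₁ * y₂ * y₃ + x₂ * y₁ * y₃ + x₃ * y₁ * y₂
      = - 3 * a₆ * l ^ 2 + 2 * a₄ * l * k - a₂ * k ^ 2 := by
    rw [hy1, hy2, hy3]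
    linear_combination 3 * l ^ 2 * e3 + 2 * l * k * e2 + k ^ 2 * e1
  have t1 : v (- a₂ * l * k ^ 2) < v k ^ 3 := by
    rw [v.map_mul, v.map_mul, v.map_neg, v.map_pow]
    calc v a₂ * v l * v k ^ 2 ≤ 1 * v l * v k ^ 2 := by gcongr
      _ = v l * v k ^ 2 := by rw [one_mul]
      _ < v k * v k ^ 2 := (mul_lt_mul_iff_left₀ hk20).mpr hl
      _ = v k ^ 3 := (pow_succ' (v k) 2).symm
  have t2 : v (a₄ * l ^ 2 * k) < v k ^ 3 := by
    rw [v.map_mul, v.map_mul, v.map_pow]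
    calc v a₄ * v l ^ 2 * v k ≤ 1 * v l ^ 2 * v k := by gcongr
      _ = v l ^ 2 * v k := by rw [one_mul]
      _ < v k ^ 2 * v k := (mul_lt_mul_iff_left₀ hk0).mpr hl2
      _ = v k ^ 3 := (pow_succ (v k) 2).symm
  have t3 : v (a₆ * l ^ 3) < v k ^ 3 := by
    rw [v.map_mul, v.map_pow]
    calc v a₆ * v l ^ 3 ≤ 1 * v l ^ 3 := by gcongr
      _ = v l ^ 3 := by rw [one_mul]
      _ < v k ^ 3 := pow_lt_pow_left₀ hl zero_le (by norm_num)
  have vDn : v (y₁ * y₂ * y₃) = v k ^ 3 := by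
    rw [hDn, ← v.map_pow]
    apply v.map_add_eq_of_lt_left
    rw [v.map_pow]
    exact v.map_sub_lt (v.map_add_lt t1 t2) t3
  have s1 : v (- 3 * a₆ * l ^ 2) ≤ v k ^ 2 := by
    rw [v.map_mul, v.map_mul, v.map_neg, v.map_pow]
    calc v 3 * v a₆ * v l ^ 2 ≤ 1 * 1 * v l ^ 2 := by gcongr; exact v_three_le v
      _ = v l ^ 2 := by rw [one_mul, one_mul]
      _ ≤ v k ^ 2 := hl2.le
  have s2 : v (2 * a₄ * l * k) ≤ v k ^ 2 := by
    rw [v.map_mul, v.map_mul, v.map_mul]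
    calc v 2 * v a₄ * v l * v k ≤ 1 * 1 * v k * v k := by gcongr; exact v_two_le v
      _ = v k ^ 2 := by rw [one_mul, one_mul, sq]
  have s3 : v (a₂ * k ^ 2) ≤ v k ^ 2 := by
    rw [v.map_mul, v.map_pow]
    calc v a₂ * v k ^ 2 ≤ 1 * v k ^ 2 := by gcongr
      _ = v k ^ 2 := by rw [one_mul]
  have vNm : v (x₁ * y₂ * y₃ + x₂ * y₁ * y₃ + x₃ * y₁ * y₂) ≤ v k ^ 2 := by
    rw [hNm]
    exact v.map_sub_le (v.map_add_le s1 s2) s3
  have hD0 : y₁ * y₂ * y₃ ≠ 0 := by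
    intro h
    rw [h, map_zero] at vDn
    exact absurd vDn.symm (pow_pos hk0 3).ne'
  have hy10 : y₁ ≠ 0 := fun h => hD0 (by rw [h]; ring)
  have hy20 : y₂ ≠ 0 := fun h => hD0 (by rw [h]; ring)
  have hy30 : y₃ ≠ 0 := fun h => hD0 (by rw [h]; ring)
  have hsum : x₁ / y₁ + x₂ / y₂ + x₃ / y₃
      = (x₁ * y₂ * y₃ + x₂ * y₁ * y₃ + x₃ * y₁ * y₂) / (y₁ * y₂ * y₃) := by
    field_simp
  have hmul : v (x₁ / y₁) * v (x₂ / y₂) * v (x₃ / y₃) = v (x₁ * x₂ * x₃) / v (y₁ * y₂ * y₃) := by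
    rw [← v.map_mul, ← v.map_mul, ← map_div₀]
    congr 1
    field_simp
  rw [hsum, hmul, map_div₀, ← hk2]
  gcongr
  exact zero_le

end tri

section model
variable {G : Type*} [AddCommGroup G] {a₂ a₄ a₆ : K}

open Classical in
/-- The local parameter `z = X / Y` (with `z 0 = 0`). -/
noncomputable def Model.zPar (M : Model G a₂ a₄ a₆) (Q : G) : K :=
  if Q = 0 then 0 else M.X Q / M.Y Q

theorem Model.zPar_zero (M : Model G a₂ a₄ a₆) : M.zPar 0 = 0 := by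
  simp [Model.zPar]

theorem Model.zPar_of_ne (M : Model G a₂ a₄ a₆) {Q : G} (hQ : Q ≠ 0) :
    M.zPar Q = M.X Q / M.Y Q := by
  simp [Model.zPar, hQ]

theorem Model.zPar_neg (M : Model G a₂ a₄ a₆) (Q : G) : M.zPar (-Q) = - M.zPar Q := by
  by_cases hQ : Q = 0
  · simp [hQ, Model.zPar_zero]
  · rw [M.zPar_of_ne hQ, M.zPar_of_ne (neg_ne_zero.mpr hQ), M.X_neg, M.Y_neg, div_neg]

/-- For a nonzero point in the kernel of reduction, `0 < v z < 1`. -/
theorem Model.v_zPar_lt_one (v : Valuation K Γ₀) (M : Model G a₂ a₄ a₆)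
    (h₂ : v a₂ ≤ 1) (h₄ : v a₄ ≤ 1) (h₆ : v a₆ ≤ 1) {Q : G} (hQ : Q ≠ 0)
    (hX : 1 < v (M.X Q)) : 0 < v (M.zPar Q) ∧ v (M.zPar Q) < 1 := by
  set x := M.X Q with hx
  set y := M.Y Q with hy
  have p : 0 < v x := lt_trans zero_lt_one hX
  have hx2 : v x < v x ^ 2 := lt_sq_of_one_lt hX
  have hx3 : v x ^ 2 < v x ^ 3 := by
    calc v x ^ 2 = v x ^ 2 * 1 := (mul_one _).symm
      _ < v x ^ 2 * v x := (mul_lt_mul_iff_right₀ (pow_pos p 2)).mpr hX
      _ = v x ^ 3 := (pow_succ (v x) 2).symm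
  have hy2 : v y ^ 2 = v x ^ 3 := by
    have e : y ^ 2 = x ^ 3 + (a₂ * x ^ 2 + a₄ * x + a₆) := by
      rw [M.eqn Q hQ]; ring
    rw [← v.map_pow, e, ← v.map_pow]
    apply v.map_add_eq_of_lt_left
    rw [v.map_pow]
    refine v.map_add_lt (v.map_add_lt ?_ ?_) ?_
    · rw [v.map_mul, v.map_pow]
      exact lt_of_le_of_lt (mul_le_of_le_one_left' h₂) hx3
    · rw [v.map_mul]
      exact lt_of_le_of_lt (mul_le_of_le_one_left' h₄) (lt_trans hx2 hx3)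
    · exact lt_of_le_of_lt h₆ (lt_trans hX (lt_trans hx2 hx3))
  have hlt : v x < v y := by
    apply lt_of_pow_lt_pow_left₀ 2 zero_le
    rw [hy2]; exact hx3
  have py : 0 < v y := lt_trans p hlt
  rw [M.zPar_of_ne hQ, map_div₀]
  exact ⟨div_pos p py, (div_lt_one₀ py).mpr hlt⟩

end model

theorem Model.no_torsion_E1 {G : Type*} [AddCommGroup G] {a₂ a₄ a₆ : K} (v : Valuation K Γ₀)
    (M : Model G a₂ a₄ a₆) (h₂ : v a₂ ≤ 1) (h₄ : v a₄ ≤ 1) (h₆ : v a₆ ≤ 1)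
    {n : ℕ} (hn : v (n : K) = 1) {P : G} (hP : n • P = 0) (hX : 1 < v (M.X P)) : P = 0 := by
  by_contra hP0
  obtain ⟨ht0, ht1⟩ := M.v_zPar_lt_one v h₂ h₄ h₆ hP0 hX
  set t := M.zPar P with ht
  have key : ∀ k : ℕ, (k • P = 0 ∨ 1 < v (M.X (k • P))) ∧ v (M.zPar (k • P) - k * t) < v t := by
    intro k
    induction k with
    | zero => simp [Model.zPar_zero, ht0]
    | succ k ih =>
      obtain ⟨ih1, ih2⟩ := ih
      have hsucc : (k + 1) • P = k • P + P := succ_nsmul P k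
      by_cases hQ : k • P = 0
      · -- `(k+1) • P = P`
        have hR : (k + 1) • P = P := by rw [hsucc, hQ, zero_add]
        rw [hR]
        refine ⟨Or.inr hX, ?_⟩
        rw [hQ, Model.zPar_zero] at ih2
        have : M.zPar P - ((k + 1 : ℕ) : K) * t = 0 - k * t := by
          rw [← ht]; push_cast; ring
        rw [this]; exact ih2
      · by_cases hR : (k + 1) • P = 0
        · refine ⟨Or.inl hR, ?_⟩
          have hQP : k • P = -P := by
            rw [hsucc] at hR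
            exact eq_neg_of_add_eq_zero_left hR
          rw [hQP, Model.zPar_neg, ← ht] at ih2
          rw [hR, Model.zPar_zero]
          have : (0 : K) - ((k + 1 : ℕ) : K) * t = -t - k * t := by push_cast; ring
          rw [this]; exact ih2
        · have hXQ : 1 < v (M.X (k • P)) := ih1.resolve_left hQ
          have hsum : k • P + P + -((k + 1) • P) = 0 := by rw [hsucc]; abel
          have T := M.tri (k • P) P (-((k + 1) • P)) hQ hP0 (neg_ne_zero.mpr hR) hsum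
          have hXR' : 1 < v (M.X (-((k + 1) • P))) := tri_E1_closed v h₂ h₄ h₆ T hXQ hX
          have hXR : 1 < v (M.X ((k + 1) • P)) := by rwa [M.X_neg] at hXR'
          refine ⟨Or.inr hXR, ?_⟩
          have hz := tri_z_add v h₂ h₄ h₆ T hXQ hX hXR'
          rw [← M.zPar_of_ne hQ, ← M.zPar_of_ne hP0, ← M.zPar_of_ne (neg_ne_zero.mpr hR),
            Model.zPar_neg, ← ht, v.map_neg] at hz
          obtain ⟨-, hzQ⟩ := M.v_zPar_lt_one v h₂ h₄ h₆ hQ hXQ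
          obtain ⟨-, hzR⟩ := M.v_zPar_lt_one v h₂ h₄ h₆ hR hXR
          have hlt : v (M.zPar (k • P) + t + -M.zPar ((k + 1) • P)) < v t := by
            refine lt_of_le_of_lt hz ?_
            calc v (M.zPar (k • P)) * v t * v (M.zPar ((k + 1) • P))
                ≤ 1 * v t * v (M.zPar ((k + 1) • P)) := by gcongr
              _ = v t * v (M.zPar ((k + 1) • P)) := by rw [one_mul]
              _ < v t * 1 := (mul_lt_mul_iff_right₀ ht0).mpr hzR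
              _ = v t := mul_one _
          have : M.zPar ((k + 1) • P) - ((k + 1 : ℕ) : K) * t
              = (M.zPar (k • P) - k * t) - (M.zPar (k • P) + t + -M.zPar ((k + 1) • P)) := by
            push_cast; ring
          rw [this]
          exact v.map_sub_lt ih2 hlt
  have h := (key n).2
  rw [hP, Model.zPar_zero, zero_sub, v.map_neg, v.map_mul, hn, one_mul] at h
  exact lt_irrefl _ h

end Fermat.Agent.S05
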