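import Mathlib
import Fermat.Agent.S05.Defs
import Fermat.Agent.S05.KerRed

/-! # S05: abstract main theorems (inertia acts trivially on prime-to-residue-char torsion) -/

set_option autoImplicit false

namespace Fermat.Agent.S05

variable {K : Type*} [Field K] {Γ₀ : Type*} [LinearOrderedCommGroupWithZero Γ₀]

section tri
variable {a₂ a₄ a₆ x₁ y₁ x₂ y₂ x₃ y₃ : K}

theorem v_le_one_of_sq (v : Valuation K Γ₀) {x : K} (h : v (x ^ 2) ≤ 1) : v x ≤ 1 := by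
  rw [v.map_pow] at h
  exact (pow_le_one_iff_of_nonneg zero_le two_ne_zero).mp h

theorem v_lt_one_of_sq (v : Valuation K Γ₀) {x : K} (h : v (x ^ 2) < 1) : v x < 1 := by
  rw [v.map_pow] at h
  exact (pow_lt_one_iff_of_nonneg zero_le two_ne_zero).mp h

/-- (2) If `P₁ ≡ -P₂` modulo the maximal ideal and `P₃` is integral, the reduction is singular. -/
theorem tri_same_red (v : Valuation K Γ₀) (h₂ : v a₂ ≤ 1) (hv2 : v (2 : K) = 1)
    (T : Tri a₂ a₄ a₆ x₁ y₁ x₂ y₂ x₃ y₃) (h1 : v x₁ ≤ 1) (h2 : v x₂ ≤ 1) (h3 : v x₃ ≤ 1)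
    (hx : v (x₁ - x₂) < 1) (hy : v (y₁ + y₂) < 1) :
    v y₁ < 1 ∧ v (3 * x₁ ^ 2 + 2 * a₂ * x₁ + a₄) < 1 := by
  obtain ⟨l, k, e1, e2, e3, s1, s2, s3⟩ := T
  have hl : v l ≤ 1 := by
    apply v_le_one_of_sq
    have : l ^ 2 = x₁ + x₂ + x₃ + a₂ := by linear_combination -s1
    rw [this]
    exact v.map_add_le (v.map_add_le (v.map_add_le h1 h2) h3) h₂
  have hd : v (y₁ - y₂) < 1 := by
    have : y₁ - y₂ = l * (x₁ - x₂) := by rw [e1, e2]; ring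
    rw [this, v.map_mul]
    exact lt_of_le_of_lt (mul_le_of_le_one_left' hl) hx
  have hy1 : v y₁ < 1 := by
    have : v (2 * y₁) < 1 := by
      have : 2 * y₁ = (y₁ + y₂) + (y₁ - y₂) := by ring
      rw [this]
      exact v.map_add_lt hy hd
    rwa [v.map_mul, hv2, one_mul] at this
  refine ⟨hy1, ?_⟩
  have : 3 * x₁ ^ 2 + 2 * a₂ * x₁ + a₄ = (x₁ - x₂) * (x₁ - x₃) + 2 * l * y₁ := by
    rw [e1]
    linear_combination (-1) * s2 + 2 * x₁ * s1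
  rw [this]
  refine v.map_add_lt ?_ ?_
  · rw [v.map_mul]
    exact lt_of_le_of_lt (mul_le_of_le_one_right' (v.map_sub_le h1 h3)) hx
  · rw [v.map_mul, v.map_mul, hv2, one_mul]
    exact lt_of_le_of_lt (mul_le_of_le_one_left' hl) hy1

/-- (3e) a line of big slope through two integral points meets the curve in the kernel of
reduction. -/
theorem tri_big_slope (v : Valuation K Γ₀) (h₂ : v a₂ ≤ 1)
    (T : Tri a₂ a₄ a₆ x₁ y₁ x₂ y₂ x₃ y₃) (h1 : v x₁ ≤ 1) (h2 : v x₂ ≤ 1)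
    (h : v (x₁ - x₂) < v (y₁ - y₂)) : 1 < v x₃ := by
  obtain ⟨l, k, e1, e2, e3, s1, s2, s3⟩ := T
  have hd : y₁ - y₂ = l * (x₁ - x₂) := by rw [e1, e2]; ring
  have hl : 1 < v l := by
    rw [hd, v.map_mul] at h
    by_contra hl
    rw [not_lt] at hl
    exact absurd h (not_lt.mpr (mul_le_of_le_one_left' hl))
  have hl2 : 1 < v (l ^ 2) := by
    rw [v.map_pow]; exact lt_trans hl (lt_sq_of_one_lt hl)
  have : x₃ = l ^ 2 - (a₂ + x₁ + x₂) := by linear_combination s1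
  rw [this, v.map_sub_eq_of_lt_left]
  · exact hl2
  · exact lt_of_le_of_lt (v.map_add_le (v.map_add_le h₂ h1) h2) hl2

end tri

variable {G : Type*} [AddCommGroup G]

/-- The properties of an element of the inertia group which we use. -/
structure IsInertial (v : Valuation K Γ₀) {a₂ a₄ a₆ : K} (M : Model G a₂ a₄ a₆)
    (s : K →+* K) (S : G →+ G) : Prop where
  ne_zero : ∀ P, P ≠ 0 → S P ≠ 0
  X_eq : ∀ P, P ≠ 0 → M.X (S P) = s (M.X P)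
  Y_eq : ∀ P, P ≠ 0 → M.Y (S P) = s (M.Y P)
  sub_lt : ∀ a, v a ≤ 1 → v (s a - a) < 1

/-- Translating the `X`-coordinate. -/
def Model.shift {a₂ a₄ a₆ : K} (M : Model G a₂ a₄ a₆) (r : K) {b₂ b₄ b₆ : K}
    (h₂ : b₂ = a₂ + 3 * r) (h₄ : b₄ = a₄ + 2 * a₂ * r + 3 * r ^ 2)
    (h₆ : b₆ = a₆ + a₄ * r + a₂ * r ^ 2 + r ^ 3) : Model G b₂ b₄ b₆ where
  X P := M.X P - r
  Y := M.Y
  eqn P hP := by
    rw [M.eqn P hP, h₂, h₄, h₆]; ring
  X_neg P := by rw [M.X_neg]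
  Y_neg := M.Y_neg
  tri P Q R hP hQ hR h := by
    rw [h₂, h₄, h₆]
    exact (M.tri P Q R hP hQ hR h).shift r

theorem IsInertial.shift {v : Valuation K Γ₀} {a₂ a₄ a₆ : K} {M : Model G a₂ a₄ a₆}
    {s : K →+* K} {S : G →+ G} (I : IsInertial v M s S) {r : K} (hr : s r = r) {b₂ b₄ b₆ : K}
    (h₂ : b₂ = a₂ + 3 * r) (h₄ : b₄ = a₄ + 2 * a₂ * r + 3 * r ^ 2)
    (h₆ : b₆ = a₆ + a₄ * r + a₂ * r ^ 2 + r ^ 3) : IsInertial v (M.shift r h₂ h₄ h₆) s S where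
  ne_zero := I.ne_zero
  X_eq P hP := by
    change M.X (S P) - r = s (M.X P - r)
    rw [I.X_eq P hP, map_sub, hr]
  Y_eq := I.Y_eq
  sub_lt := I.sub_lt

section
variable {a₂ a₄ a₆ : K}

theorem Model.fixed_of_diff (v : Valuation K Γ₀) (M : Model G a₂ a₄ a₆) (h₂ : v a₂ ≤ 1)
    (h₄ : v a₄ ≤ 1) (h₆ : v a₆ ≤ 1) {n : ℕ} (hn : v (n : K) = 1) (S : G →+ G) {P : G}
    (hP : n • P = 0) (h : S P - P ≠ 0 → 1 < v (M.X (S P - P))) : S P = P := by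
  by_contra hne
  have hQ : S P - P ≠ 0 := sub_ne_zero.mpr hne
  have hnQ : n • (S P - P) = 0 := by
    rw [smul_sub, ← map_nsmul, hP, map_zero, sub_zero]
  exact hQ (M.no_torsion_E1 v h₂ h₄ h₆ hn hnQ (h hQ))

theorem Model.v_Y_le_one (v : Valuation K Γ₀) (M : Model G a₂ a₄ a₆) (h₂ : v a₂ ≤ 1)
    (h₄ : v a₄ ≤ 1) (h₆ : v a₆ ≤ 1) {P : G} (hP0 : P ≠ 0) (hX : v (M.X P) ≤ 1) :
    v (M.Y P) ≤ 1 := by
  apply v_le_one_of_sq
  rw [M.eqn P hP0]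
  refine v.map_add_le (v.map_add_le (v.map_add_le ?_ ?_) ?_) h₆
  · rw [v.map_pow]; exact pow_le_one' hX 3
  · rw [v.map_mul, v.map_pow]; exact mul_le_one' h₂ (pow_le_one' hX 2)
  · rw [v.map_mul]; exact mul_le_one' h₄ hX

theorem IsInertial.v_s_le_one {v : Valuation K Γ₀} {M : Model G a₂ a₄ a₆}
    {s : K →+* K} {S : G →+ G} (I : IsInertial v M s S) {a : K} (ha : v a ≤ 1) : v (s a) ≤ 1 := by
  have : s a = (s a - a) + a := by ring
  rw [this]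
  exact v.map_add_le (I.sub_lt a ha).le ha

/-- (2), group level. -/
theorem Model.fixed_of_nonsing (v : Valuation K Γ₀) (M : Model G a₂ a₄ a₆) (h₂ : v a₂ ≤ 1)
    (h₄ : v a₄ ≤ 1) (h₆ : v a₆ ≤ 1) (hv2 : v (2 : K) = 1) {n : ℕ} (hn : v (n : K) = 1)
    {s : K →+* K} {S : G →+ G} (I : IsInertial v M s S) {P : G} (hP : n • P = 0) (hP0 : P ≠ 0)
    (hX : v (M.X P) ≤ 1)
    (hns : ¬ (v (M.Y P) < 1 ∧ v (3 * M.X P ^ 2 + 2 * a₂ * M.X P + a₄) < 1)) : S P = P := by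
  apply M.fixed_of_diff v h₂ h₄ h₆ hn S hP
  intro hQ
  by_contra hle
  rw [not_lt] at hle
  have T := M.tri (-P) (S P) (-(S P - P)) (neg_ne_zero.mpr hP0) (I.ne_zero P hP0)
    (neg_ne_zero.mpr hQ) (by abel)
  rw [M.X_neg, M.X_neg, M.Y_neg, M.Y_neg, I.X_eq P hP0, I.Y_eq P hP0] at T
  have hY : v (M.Y P) ≤ 1 := M.v_Y_le_one v h₂ h₄ h₆ hP0 hX
  have := tri_same_red v h₂ hv2 T hX (I.v_s_le_one hX) hle
    (by rw [v.map_sub_swap]; exact I.sub_lt _ hX)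
    (by rw [neg_add_eq_sub]; exact I.sub_lt _ hY)
  rw [v.map_neg] at this
  exact hns this

end

end Fermat.Agent.S05
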