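import Mathlib
import Fermat.Agent.S05.Defs

/-! # S05, task T: the `Model` attached to Mathlib's group of points of a Weierstrass curve -/

set_option autoImplicit false

namespace Fermat.Agent.S05

open WeierstrassCurve

variable {F : Type*} [Field F]

/-- `x`-coordinate (junk value `0` at the origin). -/
def wX (W : WeierstrassCurve.Affine F) : W.Point → F
  | .zero => 0
  | .some x _ _ => x

/-- completed-square `y`-coordinate `y + (a₁x + a₃)/2` (junk value `0` at the origin). -/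
def wY (W : WeierstrassCurve.Affine F) : W.Point → F
  | .zero => 0
  | .some x y _ => y + (W.a₁ * x + W.a₃) / 2

theorem wModel_eqn (W : WeierstrassCurve.Affine F) (h2 : (2 : F) ≠ 0) (P : W.Point) (hP : P ≠ 0) :
    wY W P ^ 2 = wX W P ^ 3 + W.b₂ / 4 * wX W P ^ 2 + W.b₄ / 2 * wX W P + W.b₆ / 4 := by
  rcases P with _ | ⟨x, y, h⟩
  · exact absurd rfl hP
  · have he := (WeierstrassCurve.Affine.equation_iff x y).mp h.1
    have h4 : (4 : F) ≠ 0 := by
      have : (4 : F) = 2 * 2 := by norm_num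
      rw [this]; exact mul_ne_zero h2 h2
    simp only [wX, wY, WeierstrassCurve.b₂, WeierstrassCurve.b₄, WeierstrassCurve.b₆]
    field_simp
    linear_combination 16 * he

theorem wModel_X_neg (W : WeierstrassCurve.Affine F) (P : W.Point) : wX W (-P) = wX W P := by
  rcases P with _ | ⟨x, y, h⟩
  · rfl
  · rfl

theorem wModel_Y_neg (W : WeierstrassCurve.Affine F) (h2 : (2 : F) ≠ 0) (P : W.Point) :
    wY W (-P) = -wY W P := by
  rcases P with _ | ⟨x, y, h⟩
  · simp [wY, WeierstrassCurve.Affine.Point.neg_def, WeierstrassCurve.Affine.Point.neg]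
  · rw [WeierstrassCurve.Affine.Point.neg_some]
    simp only [wY, WeierstrassCurve.Affine.negY]
    field_simp
    ring

theorem wModel_tri [DecidableEq F] (W : WeierstrassCurve.Affine F) (h2 : (2 : F) ≠ 0)
    (P Q R : W.Point) (hP : P ≠ 0) (hQ : Q ≠ 0) (hR : R ≠ 0) (hsum : P + Q + R = 0) :
    Tri (W.b₂ / 4) (W.b₄ / 2) (W.b₆ / 4) (wX W P) (wY W P) (wX W Q) (wY W Q) (wX W R)
      (wY W R) := by
  rcases P with _ | ⟨x₁, y₁, h₁⟩
  · exact absurd rfl hP
  rcases Q with _ | ⟨x₂, y₂, h₂⟩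
  · exact absurd rfl hQ
  rcases R with _ | ⟨x₃, y₃, h₃⟩
  · exact absurd rfl hR
  have h4 : (4 : F) ≠ 0 := by
    have : (4 : F) = 2 * 2 := by norm_num
    rw [this]; exact mul_ne_zero h2 h2
  have hxy : ¬(x₁ = x₂ ∧ y₁ = W.negY x₂ y₂) := by
    rintro ⟨hx, hy⟩
    rw [WeierstrassCurve.Affine.Point.add_of_Y_eq hx hy, zero_add] at hsum
    exact hR hsum
  have hPQ : WeierstrassCurve.Affine.Point.some x₁ y₁ h₁ + WeierstrassCurve.Affine.Point.some x₂ y₂ h₂
      = -WeierstrassCurve.Affine.Point.some x₃ y₃ h₃ := eq_neg_of_add_eq_zero_left hsum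
  rw [WeierstrassCurve.Affine.Point.add_some hxy, WeierstrassCurve.Affine.Point.neg_some,
    WeierstrassCurve.Affine.Point.some.injEq] at hPQ
  obtain ⟨hx3, hy3⟩ := hPQ
  set L := W.slope x₁ x₂ y₁ y₂ with hL
  have hy3' : y₃ = L * (x₃ - x₁) + y₁ := by
    have := congrArg (W.negY x₃) hy3
    rw [WeierstrassCurve.Affine.negY_negY, WeierstrassCurve.Affine.addY, ← hx3,
      WeierstrassCurve.Affine.negY_negY, WeierstrassCurve.Affine.negAddY] at this
    rw [← this, hx3]
  have hy2' : y₂ = L * (x₂ - x₁) + y₁ := by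
    by_cases hx : x₁ = x₂
    · have hy : y₁ ≠ W.negY x₂ y₂ := fun h => hxy ⟨hx, h⟩
      have := WeierstrassCurve.Affine.Y_eq_of_Y_ne h₁.1 h₂.1 hx hy
      rw [hx, this]; ring
    · rw [hL, WeierstrassCurve.Affine.slope_of_X_ne hx]
      have : x₁ - x₂ ≠ 0 := sub_ne_zero.mpr hx
      field_simp
      ring
  have hpoly := W.addPolynomial_slope h₁.1 h₂.1 hxy
  rw [WeierstrassCurve.Affine.addPolynomial_eq, neg_inj, Cubic.prod_X_sub_C_eq,
    Cubic.toPoly_injective, hx3, ← hL] at hpoly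
  rw [Cubic.ext_iff] at hpoly
  obtain ⟨-, hb, hc, hd⟩ := hpoly
  simp only at hb hc hd
  refine ⟨L + W.a₁ / 2, y₁ - L * x₁ + W.a₃ / 2, ?_, ?_, ?_, ?_, ?_, ?_⟩
  · simp only [wX, wY]
    field_simp
    ring
  · simp only [wX, wY]
    rw [hy2']
    field_simp
    ring
  · simp only [wX, wY]
    rw [hy3']
    field_simp
    ring
  · simp only [wX, WeierstrassCurve.b₂]
    field_simp
    linear_combination 16 * hb
  · simp only [wX, WeierstrassCurve.b₄]
    field_simp
    linear_combination (-2) * hc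
  · simp only [wX, WeierstrassCurve.b₆]
    field_simp
    linear_combination 16 * hd

/-- Mathlib's group of nonsingular points is a `Model` of `Y² = X³ + (b₂/4)X² + (b₄/2)X + b₆/4`. -/
def weierstrassModel [DecidableEq F] (W : WeierstrassCurve.Affine F) (h2 : (2 : F) ≠ 0) :
    Model W.Point (W.b₂ / 4) (W.b₄ / 2) (W.b₆ / 4) where
  X := wX W
  Y := wY W
  eqn := wModel_eqn W h2
  X_neg := wModel_X_neg W
  Y_neg := wModel_Y_neg W h2
  tri := wModel_tri W h2

end Fermat.Agent.S05
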