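import Mathlib
import Fermat.Prelude.Def_FLTPrelim_Ramification
import Fermat.Agent.S05.Defs
import Fermat.Agent.S05.Inertia
import Fermat.Agent.S05.WModel
import Fermat.Agent.S05.Red

/-! # S05: inertia elements give `IsInertial` data on the Weierstrass model -/

set_option autoImplicit false

namespace Fermat.Agent.S05

open WeierstrassCurve WeierstrassCurve.Affine WeierstrassCurve.Affine.Point

variable {F L : Type*} [Field F] [Field L] [Algebra F L] [DecidableEq L]

theorem isInertial_weierstrass (W' : WeierstrassCurve F) (h2 : (2 : L) ≠ 0)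
    (A : ValuationSubring L) (σ : L ≃ₐ[F] L) (hσ : σ ∈ A.inertiaSubgroupIn F) :
    IsInertial A.valuation (weierstrassModel (W'⁄L) h2) (σ : L →+* L)
      (Point.map (W' := W') σ.toAlgHom) where
  ne_zero P hP := by
    cases P with
    | zero => exact absurd rfl hP
    | some x y h => exact Point.some_ne_zero _
  X_eq P hP := by
    cases P with
    | zero => exact absurd rfl hP
    | some x y h => rfl
  Y_eq P hP := by
    cases P with
    | zero => exact absurd rfl hP
    | some x y h =>
      change σ y + ((W'⁄L).a₁ * σ x + (W'⁄L).a₃) / 2 = σ (y + ((W'⁄L).a₁ * x + (W'⁄L).a₃) / 2)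
      have h1 : σ ((W'⁄L).a₁) = (W'⁄L).a₁ := σ.commutes _
      have h3 : σ ((W'⁄L).a₃) = (W'⁄L).a₃ := σ.commutes _
      simp only [map_add, map_div₀, map_mul, h1, h3, map_ofNat]
  sub_lt a ha := by
    rw [A.valuation_le_one_iff] at ha
    exact (A.mem_nonunits_iff).mp ((inertia_spec A σ hσ).2 a ha)

end Fermat.Agent.S05
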