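import Mathlib
import Fermat.Prelude.Def_FLTPrelim_Ramification

/-! # S05, task A: arithmetic of a Frey package at an odd prime `q ≠ p` -/

set_option autoImplicit false

namespace Fermat.Agent.S05

variable {L : Type*} [Field L]

theorem val_intCast_le_one (A : ValuationSubring L) (n : ℤ) : A.valuation (n : L) ≤ 1 := by
  rw [A.valuation_le_one_iff]
  exact intCast_mem A n

theorem val_intCast_lt_one (A : ValuationSubring L) {q : ℕ} (hq : A.LiesOverPrime q) {n : ℤ}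
    (h : (q : ℤ) ∣ n) : A.valuation (n : L) < 1 := by
  obtain ⟨m, rfl⟩ := h
  have h1 : A.valuation (q : L) < 1 := (ValuationSubring.mem_nonunits_iff A).mp hq
  have h2 : A.valuation (m : L) ≤ 1 := val_intCast_le_one A m
  push_cast
  rw [map_mul]
  calc A.valuation (q : L) * A.valuation (m : L) ≤ A.valuation (q : L) * 1 :=
        mul_le_mul_right h2 _
    _ = A.valuation (q : L) := mul_one _
    _ < 1 := h1

theorem val_intCast_eq_one (A : ValuationSubring L) {q : ℕ} (hq' : q.Prime)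
    (hq : A.LiesOverPrime q) {n : ℤ} (h : ¬ (q : ℤ) ∣ n) : A.valuation (n : L) = 1 := by
  have hcop : IsCoprime (q : ℤ) n :=
    (Prime.coprime_iff_not_dvd (Nat.prime_iff_prime_int.mp hq')).mpr h
  obtain ⟨x, y, hxy⟩ := hcop
  refine le_antisymm (val_intCast_le_one A n) ?_
  by_contra hlt
  rw [not_le] at hlt
  have h1 : A.valuation (((x * q : ℤ) : L)) < 1 :=
    val_intCast_lt_one A hq (Dvd.intro_left x rfl)
  have h2 : A.valuation (((y * n : ℤ) : L)) < 1 := by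
    push_cast
    rw [map_mul]
    calc A.valuation (y : L) * A.valuation (n : L) ≤ 1 * A.valuation (n : L) :=
          mul_le_mul_left (val_intCast_le_one A y) _
      _ = A.valuation (n : L) := one_mul _
      _ < 1 := hlt
  have h3 : A.valuation (((x * q : ℤ) : L) + ((y * n : ℤ) : L)) < 1 :=
    Valuation.map_add_lt _ h1 h2
  rw [← Int.cast_add, hxy, Int.cast_one, map_one] at h3
  exact lt_irrefl _ h3

theorem val_natCast_eq_one (A : ValuationSubring L) {q : ℕ} (hq' : q.Prime)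
    (hq : A.LiesOverPrime q) {n : ℕ} (h : ¬ q ∣ n) : A.valuation (n : L) = 1 := by
  have := val_intCast_eq_one A hq' hq (n := (n : ℤ)) (by exact_mod_cast h)
  simpa using this

/-- `q` divides at most one of `a`, `b`, `c`; more precisely one of four cases holds. -/
theorem frey_cases (P : FreyPackage) {q : ℕ} (hq : q.Prime) :
    (¬ (q : ℤ) ∣ P.a ∧ ¬ (q : ℤ) ∣ P.b ∧ ¬ (q : ℤ) ∣ P.c) ∨
    ((q : ℤ) ∣ P.a ∧ ¬ (q : ℤ) ∣ P.b ∧ ¬ (q : ℤ) ∣ P.c) ∨
    (¬ (q : ℤ) ∣ P.a ∧ (q : ℤ) ∣ P.b ∧ ¬ (q : ℤ) ∣ P.c) ∨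
    (¬ (q : ℤ) ∣ P.a ∧ ¬ (q : ℤ) ∣ P.b ∧ (q : ℤ) ∣ P.c) := by
  have hq1 : ¬ (q : ℤ) ∣ 1 := by
    intro h
    have := Int.natCast_dvd_natCast.mp (by simpa using h : (q : ℤ) ∣ ((1 : ℕ) : ℤ))
    exact hq.one_lt.ne' (Nat.dvd_one.mp this)
  have hab : ¬ ((q : ℤ) ∣ P.a ∧ (q : ℤ) ∣ P.b) := fun h =>
    hq1 (P.hgcdab ▸ dvd_gcd h.1 h.2)
  have hac : ¬ ((q : ℤ) ∣ P.a ∧ (q : ℤ) ∣ P.c) := fun h =>
    hq1 (P.hgcdac ▸ dvd_gcd h.1 h.2)
  have hbc : ¬ ((q : ℤ) ∣ P.b ∧ (q : ℤ) ∣ P.c) := fun h =>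
    hq1 (P.hgcdbc ▸ dvd_gcd h.1 h.2)
  tauto

end Fermat.Agent.S05
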