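import Mathlib
import Fermat.Agent.S05.Defs

/-! # S05, task 3c: signed additivity of `v X` on collinear triples in the region `v δ < v X < 1`
for the curve `Y² = X (X - δ) (X - u)`, `v δ < 1`, `v u = 1`, `α² = -u`. -/

set_option autoImplicit false

namespace Fermat.Agent.S05

variable {K : Type*} [Field K] {Γ₀ : Type*} [LinearOrderedCommGroupWithZero Γ₀]

theorem Generic.v_alpha_eq_one (v : Valuation K Γ₀) {u α : K} (hu : v u = 1) (hα : α ^ 2 = -u) :
    v α = 1 := by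
  have h : v α ^ 2 = 1 := by rw [← v.map_pow, hα, v.map_neg, hu]
  exact (pow_eq_one_iff_of_nonneg zero_le two_ne_zero).mp h

theorem Generic.v_sign_eq_one (v : Valuation K Γ₀) {ε : ℤ} (hε : ε = 1 ∨ ε = -1) : v (ε : K) = 1 := by
  rcases hε with rfl | rfl <;> simp

/-- sign dichotomy -/
theorem generic_sign (v : Valuation K Γ₀) {δ u α X Y : K} (hu : v u = 1)
    (hα : α ^ 2 = -u) (hE : Y ^ 2 = X ^ 3 + (-(δ + u)) * X ^ 2 + δ * u * X + 0)
    (hX1 : v X < 1) (hXδ : v δ < v X) :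
    ∃ ε : ℤ, (ε = 1 ∨ ε = -1) ∧ v (Y - (ε : K) * α * X) < v X := by
  have hX0 : 0 < v X := lt_of_le_of_lt zero_le hXδ
  have hprod : (Y - α * X) * (Y + α * X) = X * (X ^ 2 - δ * X + δ * u) := by
    linear_combination hE - X ^ 2 * hα
  have hsmall : v (X ^ 2 - δ * X + δ * u) < v X := by
    refine v.map_add_lt (v.map_sub_lt ?_ ?_) ?_
    · rw [v.map_pow, sq]
      exact mul_lt_of_lt_one_left hX0 hX1
    · rw [v.map_mul]
      exact mul_lt_of_lt_one_left hX0 (lt_trans hXδ hX1)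
    · rw [v.map_mul, hu, mul_one]; exact hXδ
  have hlt : v (Y - α * X) * v (Y + α * X) < v X * v X := by
    rw [← v.map_mul, hprod, v.map_mul]
    exact (mul_lt_mul_iff_right₀ hX0).mpr hsmall
  by_cases h1 : v (Y - α * X) < v X
  · exact ⟨1, Or.inl rfl, by simpa using h1⟩
  · rw [not_lt] at h1
    refine ⟨-1, Or.inr rfl, ?_⟩
    by_contra h2
    rw [not_lt] at h2
    have h2' : v X ≤ v (Y + α * X) := by
      have : Y - ((-1 : ℤ) : K) * α * X = Y + α * X := by push_cast; ring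
      rwa [this] at h2
    exact absurd (mul_le_mul' h1 h2') (not_le.mpr hlt)

/-- the sign is unique -/
theorem generic_sign_unique (v : Valuation K Γ₀) {u α X Y : K} (hu : v u = 1) (hv2 : v (2 : K) = 1)
    (hα : α ^ 2 = -u) {ε ε' : ℤ} (hε : ε = 1 ∨ ε = -1) (hε' : ε' = 1 ∨ ε' = -1)
    (h : v (Y - (ε : K) * α * X) < v X) (h' : v (Y - (ε' : K) * α * X) < v X) : ε = ε' := by
  have hvα : v α = 1 := Generic.v_alpha_eq_one v hu hα
  have key : v (2 * α * X) = v X := by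
    rw [v.map_mul, v.map_mul, hv2, hvα, one_mul, one_mul]
  rcases hε with rfl | rfl <;> rcases hε' with rfl | rfl
  · rfl
  · exfalso
    have hd : v ((Y - ((-1 : ℤ) : K) * α * X) - (Y - ((1 : ℤ) : K) * α * X)) < v X :=
      v.map_sub_lt h' h
    have : (Y - ((-1 : ℤ) : K) * α * X) - (Y - ((1 : ℤ) : K) * α * X) = 2 * α * X := by
      push_cast; ring
    rw [this, key] at hd
    exact lt_irrefl _ hd
  · exfalso
    have hd : v ((Y - ((-1 : ℤ) : K) * α * X) - (Y - ((1 : ℤ) : K) * α * X)) < v X :=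
      v.map_sub_lt h h'
    have : (Y - ((-1 : ℤ) : K) * α * X) - (Y - ((1 : ℤ) : K) * α * X) = 2 * α * X := by
      push_cast; ring
    rw [this, key] at hd
    exact lt_irrefl _ hd
  · rfl

/-- comparison of `v k` with `v X` according to the sign -/
theorem Generic.tri_generic_aux (v : Valuation K Γ₀) {u α X Y l k : K} (hu : v u = 1)
    (hv2 : v (2 : K) = 1) (hα : α ^ 2 = -u) (hY : Y = l * X + k)
    {ε ε' : ℤ} (hε : ε = 1 ∨ ε = -1) (hε' : ε' = 1 ∨ ε' = -1)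
    (hl : v (l - (ε : K) * α) < 1) (hX0 : 0 < v X)
    (s : v (Y - (ε' : K) * α * X) < v X) :
    (ε' = ε ∧ v k < v X) ∨ (ε' = -ε ∧ v k = v X) := by
  have hvα : v α = 1 := Generic.v_alpha_eq_one v hu hα
  have hA : v ((l - (ε : K) * α) * X) < v X := by
    rw [v.map_mul]; exact mul_lt_of_lt_one_left hX0 hl
  have hB : v ((Y - (ε' : K) * α * X) - (l - (ε : K) * α) * X) < v X := v.map_sub_lt s hA
  have hk : k = ((Y - (ε' : K) * α * X) - (l - (ε : K) * α) * X) + ((ε' : K) - (ε : K)) * α * X := by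
    rw [hY]; ring
  by_cases hee : ε' = ε
  · left
    refine ⟨hee, ?_⟩
    subst hee
    rw [hk, sub_self, zero_mul, zero_mul, add_zero]
    exact hB
  · right
    have hneg : ε' = -ε := by
      rcases hε with h | h <;> rcases hε' with h' | h' <;> omega
    refine ⟨hneg, ?_⟩
    have hC : v (((ε' : K) - (ε : K)) * α * X) = v X := by
      have : ((ε' : K) - (ε : K)) = -(2 * (ε : K)) := by rw [hneg]; push_cast; ring
      rw [this, v.map_mul, v.map_mul, v.map_neg, v.map_mul, hv2, Generic.v_sign_eq_one v hε, hvα]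
      simp
    rw [hk]
    rw [v.map_add_eq_of_lt_right (by rw [hC]; exact hB), hC]

theorem Generic.zpow_case_all {a b c d : Γ₀} (ε : ℤ) (h : d ^ 2 = a * b * c) :
    a ^ ε * b ^ ε * c ^ ε = d ^ (2 * ε) := by
  rw [← mul_zpow, ← mul_zpow, ← h, ← zpow_natCast, ← zpow_mul]
  norm_num

theorem Generic.zpow_case_one {a b c : Γ₀} (ε : ℤ) (h : a = b * c) (ha : a ≠ 0) :
    a ^ (-ε) * (b ^ ε * c ^ ε) = 1 := by
  rw [← mul_zpow, ← h, zpow_neg, inv_mul_cancel₀ (zpow_ne_zero _ ha)]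

theorem Generic.lt_of_sq_eq_mul {κ x y : Γ₀} (h : κ ^ 2 = x * y) (hκ : 0 < κ) (hy : κ < y) : x < κ := by
  by_contra hx
  rw [not_lt] at hx
  have h1 : κ * κ < x * y :=
    lt_of_lt_of_le ((mul_lt_mul_iff_right₀ hκ).mpr hy) (mul_le_mul_left hx y)
  rw [← h, sq] at h1
  exact lt_irrefl _ h1

theorem Generic.eq_one_of_two {κ x y z : Γ₀} (h : κ ^ 2 = x * y * z) (hx : κ = x) (hy : κ = y)
    (x0 : 0 < x) (y0 : 0 < y) : z = 1 := by
  have h1 : x * y * 1 = x * y * z := by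
    rw [mul_one, ← h, sq]
    nth_rewrite 1 [hx]
    rw [hy]
  exact (mul_left_cancel₀ (mul_pos x0 y0).ne' h1).symm

theorem tri_generic (v : Valuation K Γ₀) {δ u α X₁ Y₁ X₂ Y₂ X₃ Y₃ : K} (hu : v u = 1)
    (hv2 : v (2 : K) = 1) (hα : α ^ 2 = -u) (hδ : v δ < 1)
    (T : Tri (-(δ + u)) (δ * u) 0 X₁ Y₁ X₂ Y₂ X₃ Y₃)
    (h1 : v X₁ < 1) (h1' : v δ < v X₁) (h2 : v X₂ < 1) (h2' : v δ < v X₂)
    (h3 : v X₃ < 1) (h3' : v δ < v X₃)
    {ε₁ ε₂ ε₃ : ℤ} (hε₁ : ε₁ = 1 ∨ ε₁ = -1) (hε₂ : ε₂ = 1 ∨ ε₂ = -1) (hε₃ : ε₃ = 1 ∨ ε₃ = -1)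
    (s₁ : v (Y₁ - (ε₁ : K) * α * X₁) < v X₁) (s₂ : v (Y₂ - (ε₂ : K) * α * X₂) < v X₂)
    (s₃ : v (Y₃ - (ε₃ : K) * α * X₃) < v X₃) :
    ∃ j : ℤ, v X₁ ^ ε₁ * v X₂ ^ ε₂ * v X₃ ^ ε₃ = v δ ^ (2 * j) := by
  obtain ⟨l, k, hY1, hY2, hY3, e1, e2, e3⟩ := T
  have hvα : v α = 1 := Generic.v_alpha_eq_one v hu hα
  have a0 : 0 < v X₁ := lt_of_le_of_lt zero_le h1'
  have b0 : 0 < v X₂ := lt_of_le_of_lt zero_le h2'
  have c0 : 0 < v X₃ := lt_of_le_of_lt zero_le h3'
  -- the sign of `l`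
  have hl2 : v (l - α) * v (l + α) < 1 := by
    have : (l - α) * (l + α) = X₁ + X₂ + X₃ - δ := by linear_combination (-1) * e1 - hα
    rw [← v.map_mul, this]
    exact v.map_sub_lt (v.map_add_lt (v.map_add_lt h1 h2) h3) hδ
  obtain ⟨ε, hε, hl⟩ : ∃ ε : ℤ, (ε = 1 ∨ ε = -1) ∧ v (l - (ε : K) * α) < 1 := by
    by_cases hc : v (l - α) < 1
    · exact ⟨1, Or.inl rfl, by simpa using hc⟩
    · rw [not_lt] at hc
      refine ⟨-1, Or.inr rfl, ?_⟩
      by_contra hc2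
      rw [not_lt] at hc2
      have : l - ((-1 : ℤ) : K) * α = l + α := by push_cast; ring
      rw [this] at hc2
      exact absurd (one_le_mul hc hc2) (not_le.mpr hl2)
  have hvl : v l = 1 := by
    have hεα : v ((ε : K) * α) = 1 := by rw [v.map_mul, Generic.v_sign_eq_one v hε, hvα, one_mul]
    have : l = (l - (ε : K) * α) + (ε : K) * α := by ring
    rw [this, v.map_add_eq_of_lt_right (by rw [hεα]; exact hl), hεα]
  have hk2 : v k ^ 2 = v X₁ * v X₂ * v X₃ := by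
    rw [← v.map_pow, ← v.map_mul, ← v.map_mul, e3, sub_zero]
  have hκ0 : 0 < v k := by
    have : 0 < v k ^ 2 := by rw [hk2]; exact mul_pos (mul_pos a0 b0) c0
    exact (pow_pos_iff two_ne_zero).mp this
  have A1 := Generic.tri_generic_aux v hu hv2 hα hY1 hε hε₁ hl a0 s₁
  have A2 := Generic.tri_generic_aux v hu hv2 hα hY2 hε hε₂ hl b0 s₂
  have A3 := Generic.tri_generic_aux v hu hv2 hα hY3 hε hε₃ hl c0 s₃
  rcases A1 with ⟨r1, k1⟩ | ⟨r1, k1⟩ <;> rcases A2 with ⟨r2, k2⟩ | ⟨r2, k2⟩ <;>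
    rcases A3 with ⟨r3, k3⟩ | ⟨r3, k3⟩
  · -- all signs equal
    have p12 : v (X₁ * X₂) < v k := by
      rw [v.map_mul]; exact Generic.lt_of_sq_eq_mul hk2 hκ0 k3
    have p13 : v (X₁ * X₃) < v k := by
      rw [v.map_mul]
      exact Generic.lt_of_sq_eq_mul (y := v X₂) (by rw [hk2]; ac_rfl) hκ0 k2
    have p23 : v (X₂ * X₃) < v k := by
      rw [v.map_mul]
      exact Generic.lt_of_sq_eq_mul (y := v X₁) (by rw [hk2]; ac_rfl) hκ0 k1
    have hlk : v (2 * l * k) = v k := by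
      rw [v.map_mul, v.map_mul, hv2, hvl, one_mul, one_mul]
    have hδk : v δ = v k := by
      have : δ * u = (X₁ * X₂ + X₁ * X₃ + X₂ * X₃) + 2 * l * k := by linear_combination (-1) * e2
      have h4 : v (δ * u) = v k := by
        rw [this, v.map_add_eq_of_lt_right (by
          rw [hlk]; exact v.map_add_lt (v.map_add_lt p12 p13) p23), hlk]
      rwa [v.map_mul, hu, mul_one] at h4
    refine ⟨ε, ?_⟩
    rw [r1, r2, r3, hδk]
    exact Generic.zpow_case_all ε hk2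
  · -- third sign opposite
    refine ⟨0, ?_⟩
    have h : v X₃ = v X₁ * v X₂ := by
      rw [k3, sq] at hk2
      exact mul_right_cancel₀ c0.ne' hk2
    rw [r1, r2, r3, mul_zero, zpow_zero, mul_comm]
    exact Generic.zpow_case_one ε h c0.ne'
  · -- second sign opposite
    refine ⟨0, ?_⟩
    have h : v X₂ = v X₁ * v X₃ := by
      rw [k2, sq] at hk2
      have : v X₂ * v X₂ = (v X₁ * v X₃) * v X₂ := by rw [hk2]; ac_rfl
      exact mul_right_cancel₀ b0.ne' this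
    rw [r1, r2, r3, mul_zero, zpow_zero, mul_comm (v X₁ ^ ε), mul_assoc]
    exact Generic.zpow_case_one ε h b0.ne'
  · exfalso
    exact absurd (Generic.eq_one_of_two (hk2.trans (by ac_rfl)) k2 k3 b0 c0) h1.ne
  · -- first sign opposite
    refine ⟨0, ?_⟩
    have h : v X₁ = v X₂ * v X₃ := by
      rw [k1, sq] at hk2
      have : v X₁ * v X₁ = (v X₂ * v X₃) * v X₁ := by rw [hk2]; ac_rfl
      exact mul_right_cancel₀ a0.ne' this
    rw [r1, r2, r3, mul_zero, zpow_zero, mul_assoc]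
    exact Generic.zpow_case_one ε h a0.ne'
  · exfalso
    exact absurd (Generic.eq_one_of_two (hk2.trans (by ac_rfl)) k1 k3 a0 c0) h2.ne
  · exfalso
    exact absurd (Generic.eq_one_of_two hk2 k1 k2 a0 b0) h3.ne
  · exfalso
    exact absurd (Generic.eq_one_of_two hk2 k1 k2 a0 b0) h3.ne

end Fermat.Agent.S05
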