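import Mathlib
import Fermat.Agent.S05.Defs
import Fermat.Agent.S05.Generic

/-! # S05, task 3abd: points with singular reduction on `Y² = X (X - δ) (X - u)` -/

set_option autoImplicit false

namespace Fermat.Agent.S05

variable {K : Type*} [Field K] {Γ₀ : Type*} [LinearOrderedCommGroupWithZero Γ₀]

theorem v_lt_one_of_sq_lt_one (v : Valuation K Γ₀) {y : K} (h : v (y ^ 2) < 1) : v y < 1 := by
  by_contra hc
  rw [not_lt] at hc
  rw [v.map_pow] at h
  exact absurd h (not_lt.mpr (one_le_pow₀ hc))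

/-- (3a) points with nonsingular reduction are closed under the group law -/
theorem tri_W0_closed (v : Valuation K Γ₀) {δ u X₁ Y₁ X₂ Y₂ X₃ Y₃ : K} (hu : v u = 1)
    (hδ : v δ < 1) (T : Tri (-(δ + u)) (δ * u) 0 X₁ Y₁ X₂ Y₂ X₃ Y₃)
    (h1 : 1 ≤ v X₁) (h2 : 1 ≤ v X₂) : 1 ≤ v X₃ := by
  by_contra hc
  rw [not_le] at hc
  obtain ⟨l, hm, hs, -, -⟩ := T.centre₃
  have hδu : v (δ + u) ≤ 1 := v.map_add_le hδ.le hu.le
  have hδu' : v (-(δ + u)) ≤ 1 := by rwa [v.map_neg]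
  have h3X : v (3 * X₃) < 1 := by
    rw [v.map_mul]
    exact lt_of_le_of_lt (mul_le_of_le_one_left' (v_three_le v)) hc
  have hY : v Y₃ < 1 := by
    apply v_lt_one_of_sq_lt_one
    rw [T.eqn₃]
    have e : X₃ ^ 3 + -(δ + u) * X₃ ^ 2 + δ * u * X₃ + 0
        = X₃ * (X₃ ^ 2 + -(δ + u) * X₃ + δ * u) := by ring
    rw [e, v.map_mul]
    refine lt_of_le_of_lt (mul_le_of_le_one_right' ?_) hc
    refine v.map_add_le (v.map_add_le ?_ ?_) ?_
    · rw [v.map_pow]; exact pow_le_one₀ zero_le hc.le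
    · rw [v.map_mul]; exact mul_le_one' hδu' hc.le
    · rw [v.map_mul]; exact mul_le_one' hδ.le hu.le
  have ha : v (3 * X₃ ^ 2 + 2 * -(δ + u) * X₃ + δ * u) < 1 := by
    refine v.map_add_lt (v.map_add_lt ?_ ?_) ?_
    · have : (3 : K) * X₃ ^ 2 = (3 * X₃) * X₃ := by ring
      rw [this, v.map_mul]
      exact lt_of_le_of_lt (mul_le_of_le_one_left' h3X.le) hc
    · rw [v.map_mul, v.map_mul]
      exact lt_of_le_of_lt (mul_le_of_le_one_left' (mul_le_one' (v_two_le v) hδu')) hc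
    · rw [v.map_mul, hu, mul_one]; exact hδ
  have hcc : v (-(δ + u) + 3 * X₃) ≤ 1 := v.map_add_le hδu' h3X.le
  have e1 : v (X₁ - X₃) = v X₁ := v.map_sub_eq_of_lt_left (lt_of_lt_of_le hc h1)
  have e2 : v (X₂ - X₃) = v X₂ := v.map_sub_eq_of_lt_left (lt_of_lt_of_le hc h2)
  exact keyU₂ v hm hs hcc ha hY (e1 ▸ h1) (e2 ▸ h2)

/-- (3b) the double of a point with `v X ≤ v δ` has nonsingular reduction -/
theorem tri_dbl_W0 (v : Valuation K Γ₀) {δ u X Y X₃ Y₃ : K} (hu : v u = 1)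
    (hδ0 : δ ≠ 0) (hδ : v δ < 1) (T : Tri (-(δ + u)) (δ * u) 0 X Y X Y X₃ Y₃)
    (h1 : v X ≤ v δ) : 1 ≤ v X₃ := by
  by_contra hc
  rw [not_le] at hc
  obtain ⟨l, k, -, -, -, e1, e2, e3⟩ := T
  have hD0 : 0 < v δ := by
    rw [Valuation.pos_iff]; exact hδ0
  have hX1 : v X < 1 := lt_of_le_of_lt h1 hδ
  -- `v l ≤ 1`
  have hl : v l ≤ 1 := by
    by_contra hl
    rw [not_le] at hl
    have : v (l ^ 2) ≤ 1 := by
      have e : l ^ 2 = X + X + X₃ - (δ + u) := by linear_combination -e1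
      rw [e]
      exact v.map_sub_le (v.map_add_le (v.map_add_le hX1.le hX1.le) hc.le)
        (v.map_add_le hδ.le hu.le)
    rw [v.map_pow] at this
    exact absurd this (not_le.mpr (one_lt_pow₀ hl two_ne_zero))
  -- `v k < v δ`
  have hk : v k < v δ := by
    have hk2 : v k ^ 2 < v δ ^ 2 := by
      have e : k ^ 2 = X * X * X₃ := by linear_combination -e3
      rw [← v.map_pow, e, v.map_mul, v.map_mul]
      calc v X * v X * v X₃ ≤ v δ * v δ * v X₃ := by gcongr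
        _ < v δ * v δ * 1 := by
            exact (mul_lt_mul_iff_right₀ (mul_pos hD0 hD0)).mpr hc
        _ = v δ ^ 2 := by rw [mul_one, sq]
    exact lt_of_pow_lt_pow_left₀ 2 zero_le hk2
  have key : v (δ * u) < v δ := by
    have e : δ * u = X * X + X * X₃ + X * X₃ + 2 * l * k := by linear_combination -e2
    rw [e]
    refine v.map_add_lt (v.map_add_lt (v.map_add_lt ?_ ?_) ?_) ?_
    · rw [v.map_mul]
      calc v X * v X ≤ v δ * v X := by gcongr
        _ < v δ * 1 := (mul_lt_mul_iff_right₀ hD0).mpr hX1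
        _ = v δ := mul_one _
    · rw [v.map_mul]
      calc v X * v X₃ ≤ v δ * v X₃ := by gcongr
        _ < v δ * 1 := (mul_lt_mul_iff_right₀ hD0).mpr hc
        _ = v δ := mul_one _
    · rw [v.map_mul]
      calc v X * v X₃ ≤ v δ * v X₃ := by gcongr
        _ < v δ * 1 := (mul_lt_mul_iff_right₀ hD0).mpr hc
        _ = v δ := mul_one _
    · rw [v.map_mul, v.map_mul]
      exact lt_of_le_of_lt (mul_le_of_le_one_left' (mul_le_one' (v_two_le v) hl)) hk
  rw [v.map_mul, hu, mul_one] at key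
  exact lt_irrefl _ key

/-- (3d) the valuation of the `X`-coordinate of a `p`-torsion point with singular reduction -/
theorem Model.val_X_of_torsion {G : Type*} [AddCommGroup G] (v : Valuation K Γ₀) {δ u α d : K}
    (M : Model G (-(δ + u)) (δ * u) 0) (hu : v u = 1) (hδ0 : δ ≠ 0) (hδ : v δ < 1)
    (hv2 : v (2 : K) = 1) (hα : α ^ 2 = -u) {p : ℕ} (hp : p.Prime) (hp2 : p ≠ 2)
    (hd : v δ = v d ^ p) {P : G} (hP : p • P = 0) (hP0 : P ≠ 0) (hX : v (M.X P) < 1) :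
    v δ < v (M.X P) ∧ ∃ m : ℤ, v (M.X P) = v d ^ m := by
  have hD0 : v δ ≠ 0 := (Valuation.ne_zero_iff v).mpr hδ0
  -- the "identity component"
  let W0 : G → Prop := fun Q => Q = 0 ∨ 1 ≤ v (M.X Q)
  have W0_add : ∀ Q R, W0 Q → W0 R → W0 (Q + R) := by
    intro Q R hQ hR
    by_cases hQ0 : Q = 0
    · rw [hQ0, zero_add]; exact hR
    by_cases hR0 : R = 0
    · rw [hR0, add_zero]; exact hQ
    by_cases hS : Q + R = 0
    · exact Or.inl hS
    right
    have T := M.tri Q R (-(Q + R)) hQ0 hR0 (neg_ne_zero.mpr hS) (by abel)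
    have := tri_W0_closed v hu hδ T (hQ.resolve_left hQ0) (hR.resolve_left hR0)
    rwa [M.X_neg] at this
  have W0_nsmul : ∀ (n : ℕ) (Q : G), W0 Q → W0 (n • Q) := by
    intro n Q hQ
    induction n with
    | zero => left; simp
    | succ n ih => rw [succ_nsmul]; exact W0_add _ _ ih hQ
  have hPW : ¬ W0 P := by
    rintro (h | h)
    · exact hP0 h
    · exact absurd hX (not_lt.mpr h)
  have notW0 : ∀ k : ℕ, ¬ p ∣ k → ¬ W0 (k • P) := by
    intro k hk hW
    have hcop : Nat.Coprime k p := ((Nat.Prime.coprime_iff_not_dvd hp).mpr hk).symm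
    obtain ⟨m, -, hm⟩ := Nat.exists_mul_mod_eq_one_of_coprime hcop hp.one_lt
    apply hPW
    have e : (k * m) • P = P := by
      conv_lhs => rw [← Nat.div_add_mod (k * m) p, hm]
      rw [add_smul, one_smul, mul_comm p, mul_smul, hP, smul_zero, zero_add]
    have h2 : W0 (m • (k • P)) := W0_nsmul m _ hW
    rwa [← mul_smul, mul_comm m k, e] at h2
  have gen : ∀ k : ℕ, ¬ p ∣ k →
      k • P ≠ 0 ∧ v (M.X (k • P)) < 1 ∧ v δ < v (M.X (k • P)) := by
    intro k hk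
    have h1 := notW0 k hk
    have hQ0 : k • P ≠ 0 := fun h => h1 (Or.inl h)
    have hQ1 : v (M.X (k • P)) < 1 := by
      by_contra h; exact h1 (Or.inr (not_lt.mp h))
    refine ⟨hQ0, hQ1, ?_⟩
    by_contra hc
    rw [not_lt] at hc
    have h2k : ¬ p ∣ 2 * k := by
      intro h
      rcases (Nat.Prime.dvd_mul hp).mp h with h | h
      · exact hp2 ((Nat.prime_dvd_prime_iff_eq hp Nat.prime_two).mp h)
      · exact hk h
    have h2 := notW0 (2 * k) h2k
    have e2 : (2 * k) • P = k • P + k • P := by rw [mul_smul, two_smul]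
    rw [e2] at h2
    have hS : k • P + k • P ≠ 0 := fun h => h2 (Or.inl h)
    have T := M.tri (k • P) (k • P) (-(k • P + k • P)) hQ0 hQ0 (neg_ne_zero.mpr hS) (by abel)
    have h3 := tri_dbl_W0 v hu hδ0 hδ T hc
    rw [M.X_neg] at h3
    exact h2 (Or.inr h3)
  have hp1 : ¬ p ∣ 1 := fun h => hp.one_lt.ne' (Nat.dvd_one.mp h)
  have gP := gen 1 hp1
  rw [one_smul] at gP
  refine ⟨gP.2.2, ?_⟩
  have hx0 : v (M.X P) ≠ 0 := (lt_of_le_of_lt zero_le gP.2.2).ne'
  obtain ⟨ε₁, hε₁, s₁⟩ := generic_sign v hu hα (M.eqn P hP0) hX gP.2.2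
  set g : Γ₀ := v (M.X P) ^ ε₁ with hg
  have hg0 : g ≠ 0 := zpow_ne_zero _ hx0
  -- main induction
  have main : ∀ k : ℕ, 1 ≤ k → k < p → ∃ ε : ℤ, (ε = 1 ∨ ε = -1) ∧ ∃ j : ℤ,
      v (M.Y (k • P) - (ε : K) * α * M.X (k • P)) < v (M.X (k • P)) ∧
      v (M.X (k • P)) ^ ε = g ^ k * v δ ^ (2 * j) := by
    intro k hk
    induction k, hk using Nat.le_induction with
    | base =>
      intro _
      refine ⟨ε₁, hε₁, 0, ?_, ?_⟩
      · rw [one_smul]; exact s₁
      · rw [one_smul]; simp [hg]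
    | succ k hk ih =>
      intro hkp
      obtain ⟨ε, hε, j, s, hj⟩ := ih (Nat.lt_of_succ_lt hkp)
      have hk1 : ¬ p ∣ k := Nat.not_dvd_of_pos_of_lt hk (Nat.lt_of_succ_lt hkp)
      have hk2 : ¬ p ∣ k + 1 := Nat.not_dvd_of_pos_of_lt (Nat.succ_pos k) hkp
      obtain ⟨hQ0, hQ1, hQδ⟩ := gen k hk1
      obtain ⟨hR0, hR1, hRδ⟩ := gen (k + 1) hk2
      obtain ⟨εR, hεR, sR⟩ := generic_sign v hu hα (M.eqn _ hR0) hR1 hRδ
      have T := M.tri (k • P) P (-((k + 1) • P)) hQ0 hP0 (neg_ne_zero.mpr hR0)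
        (by rw [succ_nsmul]; abel)
      have hxR0 : v (M.X ((k + 1) • P)) ≠ 0 := (lt_of_le_of_lt zero_le hRδ).ne'
      have s₃ : v (M.Y (-((k + 1) • P)) - ((-εR : ℤ) : K) * α * M.X (-((k + 1) • P)))
          < v (M.X (-((k + 1) • P))) := by
        rw [M.X_neg, M.Y_neg]
        have e : -M.Y ((k + 1) • P) - ((-εR : ℤ) : K) * α * M.X ((k + 1) • P)
            = -(M.Y ((k + 1) • P) - (εR : K) * α * M.X ((k + 1) • P)) := by
          push_cast; ring
        rw [e, v.map_neg]; exact sR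
      have hε₃ : (-εR = 1 ∨ -εR = -1) := by
        rcases hεR with h | h
        · right; rw [h]
        · left; rw [h]; norm_num
      obtain ⟨j', hj'⟩ := tri_generic v hu hv2 hα hδ T hQ1 hQδ hX gP.2.2
        (by rw [M.X_neg]; exact hR1) (by rw [M.X_neg]; exact hRδ) hε hε₁ hε₃ s s₁ s₃
      refine ⟨εR, hεR, j - j', sR, ?_⟩
      rw [M.X_neg, hj, zpow_neg, ← hg] at hj'
      have hB0 : v (M.X ((k + 1) • P)) ^ εR ≠ 0 := zpow_ne_zero _ hxR0
      have h2 : v δ ^ (2 * (j - j')) = v δ ^ (2 * j) * (v δ ^ (2 * j'))⁻¹ := by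
        rw [mul_sub, zpow_sub₀ hD0, div_eq_mul_inv]
      rw [h2, ← hj', pow_succ]
      field_simp
  -- apply at `k = p - 1`
  have hp1' : 1 ≤ p - 1 := by have := hp.two_le; omega
  obtain ⟨ε, hε, j, s, hj⟩ := main (p - 1) hp1' (by have := hp.two_le; omega)
  have hneg : (p - 1) • P = -P := by
    apply eq_neg_of_add_eq_zero_left
    rw [← succ_nsmul, Nat.sub_add_cancel hp.one_lt.le, hP]
  rw [hneg, M.X_neg, M.Y_neg] at s
  rw [hneg, M.X_neg] at hj
  have s' : v (M.Y P - ((-ε : ℤ) : K) * α * M.X P) < v (M.X P) := by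
    have e : M.Y P - ((-ε : ℤ) : K) * α * M.X P = -(-M.Y P - (ε : K) * α * M.X P) := by
      push_cast; ring
    rw [e, v.map_neg]; exact s
  have hε' : (-ε = 1 ∨ -ε = -1) := by
    rcases hε with h | h
    · right; rw [h]
    · left; rw [h]; norm_num
  have hεε : -ε = ε₁ := generic_sign_unique v hu hv2 hα hε' hε₁ s' s₁
  have hε2 : ε = -ε₁ := by rw [← hεε, neg_neg]
  rw [hε2, zpow_neg, ← hg] at hj
  -- `g ^ p = v δ ^ (-2 j)`
  have hgp : g ^ p = (v d ^ (-(2 * j))) ^ p := by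
    have e1 : g ^ p = g ^ (p - 1) * g := by
      rw [← pow_succ, Nat.sub_add_cancel hp.one_lt.le]
    have e2 : (v d ^ (-(2 * j))) ^ p = (v δ ^ (2 * j))⁻¹ := by
      rw [hd, ← zpow_natCast, ← zpow_natCast, ← zpow_mul, ← zpow_mul, ← zpow_neg]
      congr 1; ring
    have hDj : v δ ^ (2 * j) ≠ 0 := zpow_ne_zero _ hD0
    rw [e1, e2]
    have : g ^ (p - 1) = g⁻¹ * (v δ ^ (2 * j))⁻¹ := by
      rw [hj]; field_simp
    rw [this]; field_simp
  have hgd : g = v d ^ (-(2 * j)) := (pow_left_inj₀ zero_le zero_le hp.ne_zero).mp hgp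
  rcases hε₁ with h | h
  · refine ⟨-(2 * j), ?_⟩
    rw [← hgd, hg, h, zpow_one]
  · refine ⟨2 * j, ?_⟩
    have : v (M.X P) = g⁻¹ := by rw [hg, h, zpow_neg, zpow_one, inv_inv]
    rw [this, hgd, zpow_neg, inv_inv]

end Fermat.Agent.S05
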