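import Mathlib
import Fermat.Agent.S05.Defs
import Fermat.Agent.S05.KerRed
import Fermat.Agent.S05.Sing
import Fermat.Agent.S05.Red

/-! # S05: abstract main theorems for `Y² = X (X - δ) (X - u)` -/

set_option autoImplicit false

namespace Fermat.Agent.S05

variable {K : Type*} [Field K] {Γ₀ : Type*} [LinearOrderedCommGroupWithZero Γ₀]
variable {G : Type*} [AddCommGroup G]

theorem sub_lt_of_val_eq {v : Valuation K Γ₀} {s : K →+* K}
    (hs : ∀ a, v a ≤ 1 → v (s a - a) < 1) {c a : K} (hc0 : c ≠ 0) (hc : s c = c)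
    (ha : v a = v c) : v (s a - a) < v a := by
  have hvc : 0 < v c := by
    rw [zero_lt_iff]; exact (v.ne_zero_iff).mpr hc0
  have hμ : v (a / c) ≤ 1 := by
    rw [map_div₀, ha, div_self hvc.ne']
  have h := hs (a / c) hμ
  have e : s a - a = c * (s (a / c) - a / c) := by
    rw [map_div₀, hc]; field_simp
  rw [e, v.map_mul, ha]
  calc v c * v (s (a / c) - a / c) < v c * 1 := (mul_lt_mul_iff_right₀ hvc).mpr h
    _ = v c := mul_one _

section
variable {δ u : K}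

theorem v_coeffs (v : Valuation K Γ₀) (hu : v u ≤ 1) (hδ : v δ ≤ 1) :
    v (-(δ + u)) ≤ 1 ∧ v (δ * u) ≤ 1 ∧ v (0 : K) ≤ 1 := by
  refine ⟨?_, ?_, by simp⟩
  · rw [v.map_neg]; exact v.map_add_le hδ hu
  · rw [v.map_mul]; exact mul_le_one' hδ hu

/-- (3e), group level. -/
theorem Model.fixed_of_sing (v : Valuation K Γ₀) {α d : K}
    (M : Model G (-(δ + u)) (δ * u) 0) (hu : v u = 1) (hδ0 : δ ≠ 0) (hδ : v δ < 1)
    (hv2 : v (2 : K) = 1) (hα : α ^ 2 = -u) {p : ℕ} (hp : p.Prime) (hp2 : p ≠ 2)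
    (hpv : v (p : K) = 1) (hd : v δ = v d ^ p)
    {s : K →+* K} {S : G →+ G} (I : IsInertial v M s S) (hsd : s d = d)
    {P : G} (hP : p • P = 0) (hP0 : P ≠ 0) (hX : v (M.X P) < 1) : S P = P := by
  obtain ⟨c₂, c₄, c₆⟩ := v_coeffs v hu.le hδ.le
  obtain ⟨hgen, m, hm⟩ := M.val_X_of_torsion v hu hδ0 hδ hv2 hα hp hp2 hd hP hP0 hX
  have hd0 : d ≠ 0 := by
    rintro rfl
    rw [map_zero, zero_pow hp.ne_zero] at hd
    exact hδ0 ((v.zero_iff).mp hd)
  have hc0 : d ^ m ≠ 0 := zpow_ne_zero m hd0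
  have hsc : s (d ^ m) = d ^ m := by rw [map_zpow₀, hsd]
  have hXc : v (M.X P) = v (d ^ m) := by rw [map_zpow₀, hm]
  -- `v Y = v X`
  have hXpos : 0 < v (M.X P) := lt_of_le_of_lt zero_le hgen
  have hYX : v (M.Y P) = v (M.X P) := by
    have e : M.Y P ^ 2 = M.X P * (M.X P - δ) * (M.X P - u) := by
      rw [M.eqn P hP0]; ring
    have h1 : v (M.X P - δ) = v (M.X P) := v.map_sub_eq_of_lt_left hgen
    have h2 : v (M.X P - u) = 1 := by
      rw [v.map_sub_eq_of_lt_right (by rw [hu]; exact hX), hu]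
    have h3 : v (M.Y P) ^ 2 = v (M.X P) ^ 2 := by
      rw [← v.map_pow, e, v.map_mul, v.map_mul, h1, h2, mul_one, sq]
    exact (pow_left_inj₀ zero_le zero_le two_ne_zero).mp h3
  have hsX : v (s (M.X P) - M.X P) < v (M.X P) := sub_lt_of_val_eq I.sub_lt hc0 hsc hXc
  have hsY : v (s (M.Y P) - M.Y P) < v (M.Y P) :=
    sub_lt_of_val_eq I.sub_lt hc0 hsc (hYX.trans hXc)
  apply M.fixed_of_diff v c₂ c₄ c₆ hpv S hP
  intro hQ
  have T := M.tri (S P) (-P) (-(S P - P)) (I.ne_zero P hP0) (neg_ne_zero.mpr hP0)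
    (neg_ne_zero.mpr hQ) (by abel)
  rw [M.X_neg, M.X_neg, M.Y_neg, M.Y_neg, I.X_eq P hP0, I.Y_eq P hP0] at T
  refine tri_big_slope v c₂ T (I.v_s_le_one hX.le) hX.le ?_
  have e : s (M.Y P) - -M.Y P = 2 * M.Y P + (s (M.Y P) - M.Y P) := by ring
  have h2Y : v (2 * M.Y P) = v (M.Y P) := by rw [v.map_mul, hv2, one_mul]
  rw [e, v.map_add_eq_of_lt_left (by rw [h2Y]; exact hsY), h2Y, hYX]
  exact hsX

/-- Multiplicative reduction. -/
theorem Model.fixed_mult (v : Valuation K Γ₀) {α d : K}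
    (M : Model G (-(δ + u)) (δ * u) 0) (hu : v u = 1) (hδ0 : δ ≠ 0) (hδ : v δ < 1)
    (hv2 : v (2 : K) = 1) (hα : α ^ 2 = -u) {p : ℕ} (hp : p.Prime) (hp2 : p ≠ 2)
    (hpv : v (p : K) = 1) (hd : v δ = v d ^ p)
    {s : K →+* K} {S : G →+ G} (I : IsInertial v M s S) (hsd : s d = d)
    {P : G} (hP : p • P = 0) : S P = P := by
  obtain ⟨c₂, c₄, c₆⟩ := v_coeffs v hu.le hδ.le
  by_cases hP0 : P = 0
  · rw [hP0, map_zero]
  rcases lt_trichotomy (v (M.X P)) 1 with hX | hX | hX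
  · exact M.fixed_of_sing v hu hδ0 hδ hv2 hα hp hp2 hpv hd I hsd hP hP0 hX
  · apply M.fixed_of_nonsing v c₂ c₄ c₆ hv2 hpv I hP hP0 hX.le
    rintro ⟨hY, hf⟩
    have e : M.Y P ^ 2 = M.X P * (M.X P - δ) * (M.X P - u) := by
      rw [M.eqn P hP0]; ring
    have h1 : v (M.X P - δ) = 1 := by
      rw [v.map_sub_eq_of_lt_left (by rw [hX]; exact hδ), hX]
    have h3 : v (M.X P - u) < 1 := by
      have : v (M.Y P ^ 2) < 1 := by
        rw [v.map_pow]; exact pow_lt_one₀ zero_le hY two_ne_zero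
      rwa [e, v.map_mul, v.map_mul, hX, h1, one_mul, one_mul] at this
    have e' : 3 * M.X P ^ 2 + 2 * -(δ + u) * M.X P + δ * u
        = M.X P * (M.X P - δ) + (M.X P - u) * (2 * M.X P - δ) := by ring
    rw [e', v.map_add_eq_of_lt_left, v.map_mul, hX, h1, one_mul] at hf
    · exact lt_irrefl _ hf
    · rw [v.map_mul, v.map_mul, hX, h1, one_mul]
      refine lt_of_le_of_lt (mul_le_of_le_one_right' ?_) h3
      refine v.map_sub_le ?_ hδ.le
      rw [v.map_mul, hv2, hX, one_mul]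
  · exact absurd (M.no_torsion_E1 v c₂ c₄ c₆ hpv hP hX) hP0

/-- Good reduction. -/
theorem Model.fixed_good (v : Valuation K Γ₀)
    (M : Model G (-(δ + u)) (δ * u) 0) (hu : v u = 1) (hδ : v δ = 1) (hδu : v (δ - u) = 1)
    (hv2 : v (2 : K) = 1) {n : ℕ} (hn : v (n : K) = 1)
    {s : K →+* K} {S : G →+ G} (I : IsInertial v M s S)
    {P : G} (hP : n • P = 0) : S P = P := by
  obtain ⟨c₂, c₄, c₆⟩ := v_coeffs v hu.le hδ.le
  by_cases hP0 : P = 0
  · rw [hP0, map_zero]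
  rcases le_or_gt (v (M.X P)) 1 with hX | hX
  · apply M.fixed_of_nonsing v c₂ c₄ c₆ hv2 hn I hP hP0 hX
    rintro ⟨hY, hf⟩
    have e : M.Y P ^ 2 = M.X P * (M.X P - δ) * (M.X P - u) := by
      rw [M.eqn P hP0]; ring
    have hprod : v (M.X P) * v (M.X P - δ) * v (M.X P - u) < 1 := by
      have : v (M.Y P ^ 2) < 1 := by
        rw [v.map_pow]; exact pow_lt_one₀ zero_le hY two_ne_zero
      rwa [e, v.map_mul, v.map_mul] at this
    have h2x : ∀ w : K, v w ≤ 1 → v (2 * M.X P - w) ≤ 1 := by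
      intro w hw
      refine v.map_sub_le ?_ hw
      rw [v.map_mul, hv2, one_mul]; exact hX
    have key : ∀ A B C D : K, 3 * M.X P ^ 2 + 2 * -(δ + u) * M.X P + δ * u = A * B + C * D →
        v A = 1 → v B = 1 → v C < 1 → v D ≤ 1 → False := by
      intro A B C D h hA hB hC hD
      rw [h, v.map_add_eq_of_lt_left, v.map_mul, hA, hB, one_mul] at hf
      · exact lt_irrefl _ hf
      · rw [v.map_mul, v.map_mul, hA, hB, one_mul]
        exact lt_of_le_of_lt (mul_le_of_le_one_right' hD) hC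
    by_cases h1 : v (M.X P) < 1
    · refine key (M.X P - δ) (M.X P - u) (M.X P) (2 * M.X P - (δ + u)) (by ring) ?_ ?_ h1
        (h2x _ (v.map_add_le hδ.le hu.le))
      · rw [v.map_sub_eq_of_lt_right (by rw [hδ]; exact h1), hδ]
      · rw [v.map_sub_eq_of_lt_right (by rw [hu]; exact h1), hu]
    by_cases h2 : v (M.X P - δ) < 1
    · refine key (M.X P) (M.X P - u) (M.X P - δ) (2 * M.X P - u) (by ring) ?_ ?_ h2 (h2x _ hu.le)
      · exact le_antisymm hX (not_lt.mp h1)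
      · have : M.X P - u = (δ - u) + (M.X P - δ) := by ring
        rw [this, v.map_add_eq_of_lt_left (by rw [hδu]; exact h2), hδu]
    by_cases h3 : v (M.X P - u) < 1
    · refine key (M.X P) (M.X P - δ) (M.X P - u) (2 * M.X P - δ) (by ring) ?_ ?_ h3 (h2x _ hδ.le)
      · exact le_antisymm hX (not_lt.mp h1)
      · have : M.X P - δ = (M.X P - u) - (δ - u) := by ring
        rw [this, v.map_sub_eq_of_lt_right (by rw [hδu]; exact h3), hδu]
    rw [not_lt] at h1 h2 h3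
    exact absurd hprod (not_lt.mpr (one_le_mul (one_le_mul h1 h2) h3))
  · exact absurd (M.no_torsion_E1 v c₂ c₄ c₆ hn hP hX) hP0

end

end Fermat.Agent.S05
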